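/-
Block K1 (GalRep project): on a curve in the sense of `IsCurveOfGenus`, a function all of whose
orders vanish is constant (the hypothesis `hconst` of `Pic0Kummer`).
-/
import Mathlib
import Fermat.Agent.S18lib.Setup.CurveRR

set_option autoImplicit false

namespace Fermat.Agent.S29lib.K1

open AlgebraicCurve Fermat.Agent.S18lib

theorem const_of_ord_eq_zero {K F : Type*} [Field K] [Field F] [Algebra K F] {g : ℕ}
    (hC : IsCurveOfGenus K F g) (f : F) (_hf : f ≠ 0) (h : ∀ v : Place K F, v.ord f = 0) :
    ∃ c : K, algebraMap K F c = f := by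
  have hmem : f ∈ riemannRochSpace (0 : Divisor K F) := by
    rw [mem_riemannRochSpace_iff]
    intro v
    right
    rw [h v]
    simp
  rw [hC.riemannRochSpace_zero] at hmem
  obtain ⟨c, hc⟩ := Algebra.mem_bot.1 hmem
  exact ⟨c, hc⟩

end Fermat.Agent.S29lib.K1
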