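/-
Block K1 (GalRep project): holomorphic `n`-th roots on the upper half-plane.

If `F` is a non-zero holomorphic function on `ℍ` all of whose orders of vanishing are divisible
by `n`, then `F = H ^ n` for some holomorphic `H`.
-/
import Mathlib
import Fermat.Agent.ProgramR.Analytic.Division

set_option autoImplicit false

namespace Fermat.Agent.S29lib.K1

open Fermat.Agent.ProgramR
open UpperHalfPlane Filter Topology Set
open scoped Manifold

/-! ### Local lemmas on continuous roots -/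

/-- The `n`-th roots of unity different from `1` form a closed set not containing `1`. -/
lemma eventually_eq_one_of_pow_eq_one {n : ℕ} (hn : 0 < n) {q : ℂ → ℂ} {w₀ : ℂ}
    (hq : ContinuousAt q w₀) (h1 : q w₀ = 1) (hpow : ∀ᶠ w in 𝓝 w₀, q w ^ n = 1) :
    ∀ᶠ w in 𝓝 w₀, q w = 1 := by
  classical
  set S : Set ℂ := {ζ : ℂ | ζ ^ n = 1 ∧ ζ ≠ 1} with hS
  have hSfin : S.Finite := by
    refine Set.Finite.subset (Polynomial.nthRootsFinset n (1 : ℂ)).finite_toSet ?_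
    intro ζ hζ
    simp only [Finset.mem_coe]
    exact (Polynomial.mem_nthRootsFinset hn (1 : ℂ)).2 hζ.1
  have hopen : IsOpen Sᶜ := hSfin.isClosed.isOpen_compl
  have hmem : q w₀ ∈ Sᶜ := by
    rw [h1]
    intro h
    exact h.2 rfl
  have h2 : ∀ᶠ w in 𝓝 w₀, q w ∈ Sᶜ := hq.eventually (hopen.mem_nhds hmem)
  filter_upwards [h2, hpow] with w hw hw'
  by_contra hne
  exact hw ⟨hw', hne⟩

/-- Two continuous `n`-th roots of the same function which agree (and do not vanish) at a point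
agree near that point. -/
lemma eventually_eq_of_pow_eq {n : ℕ} (hn : 0 < n) {r₁ r₂ : ℂ → ℂ} {w₀ : ℂ}
    (h₁ : ContinuousAt r₁ w₀) (h₂ : ContinuousAt r₂ w₀) (h0 : r₂ w₀ ≠ 0)
    (heq : r₁ w₀ = r₂ w₀) (hpow : ∀ᶠ w in 𝓝 w₀, r₁ w ^ n = r₂ w ^ n) :
    ∀ᶠ w in 𝓝 w₀, r₁ w = r₂ w := by
  have hq : ContinuousAt (fun w => r₁ w / r₂ w) w₀ := h₁.div h₂ h0
  have hne : ∀ᶠ w in 𝓝 w₀, r₂ w ≠ 0 := h₂.eventually_ne h0
  have hq1 : (fun w => r₁ w / r₂ w) w₀ = 1 := by
    simp only [heq]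
    exact div_self h0
  have hqpow : ∀ᶠ w in 𝓝 w₀, (fun w => r₁ w / r₂ w) w ^ n = 1 := by
    filter_upwards [hne, hpow] with w hw hw'
    simp only [div_pow, hw']
    exact div_self (pow_ne_zero n hw)
  filter_upwards [eventually_eq_one_of_pow_eq_one hn hq hq1 hqpow, hne] with w hw hw'
  have : r₁ w / r₂ w = 1 := hw
  rwa [div_eq_one_iff_eq hw'] at this

/-- A continuous `n`-th root of a differentiable function is differentiable wherever it does not
vanish. -/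
lemma differentiableAt_of_pow_eq {n : ℕ} (hn : 0 < n) {r g : ℂ → ℂ} {w₀ : ℂ}
    (hr : ContinuousAt r w₀) (hg : DifferentiableAt ℂ g w₀) (h0 : r w₀ ≠ 0)
    (hpow : ∀ᶠ w in 𝓝 w₀, r w ^ n = g w) : DifferentiableAt ℂ r w₀ := by
  set ω : ℂ := r w₀ with hω
  have hd : HasStrictDerivAt (fun v : ℂ => v ^ n) ((n : ℂ) * ω ^ (n - 1)) ω :=
    hasStrictDerivAt_pow n ω
  have hd0 : (n : ℂ) * ω ^ (n - 1) ≠ 0 :=
    mul_ne_zero (Nat.cast_ne_zero.2 hn.ne') (pow_ne_zero _ h0)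
  set ψ : ℂ → ℂ := hd.localInverse (fun v : ℂ => v ^ n) _ ω hd0 with hψ
  have hleft : ∀ᶠ v in 𝓝 ω, ψ (v ^ n) = v := hd.eventually_left_inverse hd0
  have hψd : HasStrictDerivAt ψ ((n : ℂ) * ω ^ (n - 1))⁻¹ (ω ^ n) := hd.to_localInverse hd0
  have hgω : g w₀ = ω ^ n := by
    have := hpow.self_of_nhds
    rw [← this]
  have h1 : ∀ᶠ w in 𝓝 w₀, ψ (r w ^ n) = r w := hr.eventually hleft
  have h2 : ∀ᶠ w in 𝓝 w₀, r w = ψ (g w) := by
    filter_upwards [h1, hpow] with w hw hw'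
    rw [← hw', hw]
  have hψd' : DifferentiableAt ℂ ψ (g w₀) := by
    rw [hgω]
    exact hψd.hasDerivAt.differentiableAt
  have h3 : DifferentiableAt ℂ (fun w => ψ (g w)) w₀ := hψd'.comp w₀ hg
  exact h3.congr_of_eventuallyEq h2

/-- Rigidity of holomorphic `n`-th roots on a connected open set. -/
lemma eqOn_of_pow_eq {n : ℕ} (hn : 0 < n) {V : Set ℂ} (hVo : IsOpen V) (hVc : IsPreconnected V)
    {h₁ h₂ : ℂ → ℂ} (hd₁ : DifferentiableOn ℂ h₁ V) (hd₂ : DifferentiableOn ℂ h₂ V)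
    (hpow : ∀ w ∈ V, h₁ w ^ n = h₂ w ^ n) {w₀ : ℂ} (hw₀ : w₀ ∈ V) (heq : h₁ w₀ = h₂ w₀)
    (h0 : h₂ w₀ ≠ 0) : EqOn h₁ h₂ V := by
  have ha₁ : AnalyticOnNhd ℂ h₁ V := hd₁.analyticOnNhd hVo
  have ha₂ : AnalyticOnNhd ℂ h₂ V := hd₂.analyticOnNhd hVo
  refine ha₁.eqOn_of_preconnected_of_eventuallyEq ha₂ hVc hw₀ ?_
  refine eventually_eq_of_pow_eq hn (ha₁ w₀ hw₀).continuousAt (ha₂ w₀ hw₀).continuousAt h0 heq ?_
  filter_upwards [hVo.mem_nhds hw₀] with w hw
  exact hpow w hw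

/-! ### Linear factors and finiteness of zeros -/

/-- The linear function `z ↦ z - u` on `ℍ`. -/
noncomputable def lin (u : ℂ) : Hol :=
  ⟨fun z : ℍ => (z : ℂ) - u, UpperHalfPlane.mdifferentiable_coe.sub mdifferentiable_const⟩

@[simp] lemma lin_apply (u : ℂ) (z : ℍ) : ((lin u : Hol) : ℍ → ℂ) z = (z : ℂ) - u := rfl

lemma ordAt_lin_self (u : ℍ) : Hol.ordAt u (lin (u : ℂ)) = 1 := by
  unfold Hol.ordAt
  have h : (((lin (u : ℂ) : Hol) : ℍ → ℂ) ∘ ofComplex) =ᶠ[𝓝 (u : ℂ)] (fun w : ℂ => w - (u : ℂ)) := by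
    filter_upwards [isOpen_upperHalfPlaneSet.mem_nhds u.im_pos] with w hw
    simp only [Function.comp_apply, lin_apply]
    rw [ofComplex_apply_of_im_pos hw]
  rw [analyticOrderAt_congr h]
  exact analyticOrderAt_id_sub_const_self

lemma ordAt_lin_of_ne {u z : ℍ} (h : z ≠ u) : Hol.ordAt z (lin (u : ℂ)) = 0 := by
  rw [Hol.ordAt_eq_zero_iff, lin_apply, sub_ne_zero]
  intro h'
  exact h (UpperHalfPlane.ext h')

lemma lin_ne_zero (u : ℂ) : lin u ≠ 0 := by
  intro h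
  have h1 : ((lin u : Hol) : ℍ → ℂ) UpperHalfPlane.I = 0 := by rw [h]; rfl
  have h2 : ((lin u : Hol) : ℍ → ℂ) ⟨2 * Complex.I, by simp⟩ = 0 := by rw [h]; rfl
  rw [lin_apply, sub_eq_zero] at h1 h2
  have h3 : ((UpperHalfPlane.I : ℍ) : ℂ) = 2 * Complex.I := h1.trans h2.symm
  rw [UpperHalfPlane.coe_I] at h3
  have h4 := congrArg Complex.im h3
  simp at h4

/-- A non-zero holomorphic function has finitely many zeros in a compact subset of `ℍ`. -/
lemma finite_zeros_of_isCompact {F : Hol} (hF : F ≠ 0) {K : Set ℂ} (hK : IsCompact K)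
    (hKU : K ⊆ {w : ℂ | 0 < w.im}) : {z : ℍ | (z : ℂ) ∈ K ∧ (F : ℍ → ℂ) z = 0}.Finite := by
  set f : ℂ → ℂ := (F : ℍ → ℂ) ∘ ofComplex with hf
  have hfin : {w : ℂ | w ∈ K ∧ f w = 0}.Finite := by
    by_contra hinf
    have hinf' : {w : ℂ | w ∈ K ∧ f w = 0}.Infinite := hinf
    obtain ⟨w₁, hw₁K, hacc⟩ := hinf'.exists_accPt_of_subset_isCompact hK (fun w hw => hw.1)
    rw [accPt_iff_frequently_nhdsNE] at hacc
    have hfa : AnalyticAt ℂ f w₁ := F.analyticAt ⟨w₁, hKU hw₁K⟩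
    have hfr : ∃ᶠ w in 𝓝[≠] w₁, f w = 0 := hacc.mono (fun w hw => hw.2)
    have hev : ∀ᶠ w in 𝓝 w₁, f w = 0 := hfa.frequently_zero_iff_eventually_zero.1 hfr
    have htop : Hol.ordAt ⟨w₁, hKU hw₁K⟩ F = ⊤ := by
      unfold Hol.ordAt
      rw [analyticOrderAt_eq_top]
      exact hev
    exact hF ((Hol.ordAt_eq_top_iff _ F).1 htop)
  have hpre : {z : ℍ | (z : ℂ) ∈ K ∧ (F : ℍ → ℂ) z = 0} =
      (fun z : ℍ => (z : ℂ)) ⁻¹' {w : ℂ | w ∈ K ∧ f w = 0} := by
    ext z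
    simp only [mem_ofPred_eq, mem_preimage, hf, Function.comp_apply, ofComplex_apply]
  rw [hpre]
  exact hfin.preimage (Set.injOn_of_injective (fun a b hab => UpperHalfPlane.ext hab))

/-! ### Dividing out the zeros in a finite set -/

lemma exists_natCast_ordAt (z : ℍ) {f : Hol} (hf : f ≠ 0) : ∃ a : ℕ, Hol.ordAt z f = (a : ℕ∞) := by
  obtain ⟨a, ha⟩ := ENat.ne_top_iff_exists.1 (Hol.ordAt_ne_top z hf)
  exact ⟨a, ha.symm⟩

/-- If all orders of `F` are divisible by `n`, then for any finite set `Z ⊆ ℍ` we may write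
`F = P ^ n * G` with `G` not vanishing on `Z`. -/
lemma exists_factor {F : Hol} (hF : F ≠ 0) {n : ℕ} (hn : 0 < n)
    (hdiv : ∀ z, ∃ k : ℕ, Hol.ordAt z F = ((n * k : ℕ) : ℕ∞)) (Z : Finset ℍ) :
    ∃ P G : Hol, F = P ^ n * G ∧ ∀ z ∈ Z, (G : ℍ → ℂ) z ≠ 0 := by
  classical
  induction Z using Finset.induction_on with
  | empty => exact ⟨1, F, by simp, by simp⟩
  | insert u Z hu ih =>
    obtain ⟨P, G, hFPG, hG⟩ := ih
    by_cases hGu : (G : ℍ → ℂ) u ≠ 0
    · refine ⟨P, G, hFPG, fun z hz => ?_⟩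
      rcases Finset.mem_insert.1 hz with rfl | hz
      · exact hGu
      · exact hG z hz
    · have hP : P ≠ 0 := by
        rintro rfl
        apply hF
        rw [hFPG, zero_pow hn.ne', zero_mul]
      have hG0 : G ≠ 0 := by
        rintro rfl
        apply hF
        rw [hFPG, mul_zero]
      obtain ⟨k, hk⟩ := hdiv u
      obtain ⟨a, ha⟩ := exists_natCast_ordAt u hP
      obtain ⟨b, hb⟩ := exists_natCast_ordAt u hG0
      have hord : ((n * k : ℕ) : ℕ∞) = ((n * a + b : ℕ) : ℕ∞) := by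
        rw [← hk, hFPG, Hol.ordAt_mul, Hol.ordAt_pow, ha, hb]
        push_cast
        rw [nsmul_eq_mul]
      have hnat : n * k = n * a + b := by exact_mod_cast hord
      obtain ⟨j, hj⟩ : ∃ j, b = n * j := by
        refine ⟨k - a, ?_⟩
        have hak : a ≤ k := by
          by_contra hlt
          rw [not_le] at hlt
          have : n * k < n * a := Nat.mul_lt_mul_of_pos_left hlt hn
          omega
        rw [Nat.mul_sub]
        omega
      have hdvd : (lin (u : ℂ)) ^ (n * j) ∣ G := by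
        apply Hol.dvd_of_forall_ordAt_le (pow_ne_zero _ (lin_ne_zero _))
        intro z
        rw [Hol.ordAt_pow]
        by_cases hz : z = u
        · subst hz
          rw [ordAt_lin_self, hb, hj, nsmul_one]
        · rw [ordAt_lin_of_ne hz, smul_zero]
          exact zero_le
      obtain ⟨G', hG'⟩ := hdvd
      have hG'0 : G' ≠ 0 := by
        rintro rfl
        exact hG0 (by rw [hG', mul_zero])
      refine ⟨P * lin (u : ℂ) ^ j, G', ?_, ?_⟩
      · rw [hFPG, hG']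
        ring
      · intro z hz
        rcases Finset.mem_insert.1 hz with rfl | hz
        · obtain ⟨x, hx⟩ := exists_natCast_ordAt z hG'0
          have h1 : Hol.ordAt z G = Hol.ordAt z (lin (z : ℂ) ^ (n * j)) + Hol.ordAt z G' := by
            rw [← Hol.ordAt_mul, ← hG']
          rw [hb, Hol.ordAt_pow, ordAt_lin_self, hj, nsmul_one, hx] at h1
          have h2 : n * j = n * j + x := by exact_mod_cast h1
          have hx0 : x = 0 := by omega
          rw [← Hol.ordAt_eq_zero_iff, hx, hx0]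
          rfl
        · have h1 := hG z hz
          have h2 : (G : ℍ → ℂ) z =
              ((lin (u : ℂ) ^ (n * j) : Hol) : ℍ → ℂ) z * (G' : ℍ → ℂ) z := by
            rw [hG']
            rfl
          rw [h2] at h1
          exact right_ne_zero_of_mul h1

/-! ### Roots on convex relatively compact pieces -/

lemma exists_root_on {F : Hol} (hF : F ≠ 0) {n : ℕ} (hn : 0 < n)
    (hdiv : ∀ z, ∃ k : ℕ, Hol.ordAt z F = ((n * k : ℕ) : ℕ∞)) {V K : Set ℂ} (hVo : IsOpen V)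
    (hVc : Convex ℝ V) (hVne : V.Nonempty) (hVK : V ⊆ K) (hK : IsCompact K)
    (hKU : K ⊆ {w : ℂ | 0 < w.im}) :
    ∃ h : ℂ → ℂ, DifferentiableOn ℂ h V ∧
      ∀ w ∈ V, h w ^ n = (F : ℍ → ℂ) (ofComplex w) := by
  classical
  set Z : Finset ℍ := (finite_zeros_of_isCompact hF hK hKU).toFinset with hZ
  obtain ⟨P, G, hFPG, hG⟩ := exists_factor hF hn hdiv Z
  have hFval : ∀ z : ℍ, (F : ℍ → ℂ) z = ((P : ℍ → ℂ) z) ^ n * (G : ℍ → ℂ) z := by
    intro z
    rw [hFPG]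
    rfl
  have hGV : ∀ w ∈ V, (G : ℍ → ℂ) (ofComplex w) ≠ 0 := by
    intro w hw
    by_cases h0 : (F : ℍ → ℂ) (ofComplex w) = 0
    · apply hG
      rw [hZ, Set.Finite.mem_toFinset]
      refine ⟨?_, h0⟩
      rw [ofComplex_apply_of_im_pos (hKU (hVK hw))]
      exact hVK hw
    · intro hG0
      apply h0
      rw [hFval, hG0, mul_zero]
  set g : ℂ → ℂ := (G : ℍ → ℂ) ∘ ofComplex with hg
  have hgd : DifferentiableOn ℂ g {w : ℂ | 0 < w.im} := UpperHalfPlane.mdifferentiable_iff.1 G.2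
  have hgV : DifferentiableOn ℂ g V := hgd.mono (hVK.trans hKU)
  have hsc : IsSimplyConnected V := by
    have := hVc.contractibleSpace hVne
    exact SimplyConnectedSpace.ofContractible V
  obtain ⟨r, hrc, hr⟩ := Complex.exists_continuousOn_pow_eq hsc hVo hgV.continuousOn
    (by rintro ⟨w, hw, h⟩; exact hGV w hw h) hn.ne'
  have hrd : DifferentiableOn ℂ r V := by
    intro w hw
    apply DifferentiableAt.differentiableWithinAt
    refine differentiableAt_of_pow_eq hn (hrc.continuousAt (hVo.mem_nhds hw))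
      (hgV.differentiableAt (hVo.mem_nhds hw)) ?_ (Eventually.of_forall hr)
    intro h0
    apply hGV w hw
    have := hr w
    rw [h0, zero_pow hn.ne'] at this
    exact this.symm
  refine ⟨fun w => (P : ℍ → ℂ) (ofComplex w) * r w, ?_, ?_⟩
  · exact ((UpperHalfPlane.mdifferentiable_iff.1 P.2).mono (hVK.trans hKU)).mul hrd
  · intro w hw
    simp only
    rw [mul_pow, hr w, hFval]
    rfl

/-! ### The exhaustion of the upper half-plane by rectangles -/

/-- The exhausting open rectangles. -/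
def rect (m : ℕ) : Set ℂ := Ioo (-(m + 2 : ℝ)) (m + 2) ×ℂ Ioo (1 / (m + 2 : ℝ)) (m + 2)

/-- The exhausting closed rectangles. -/
def crect (m : ℕ) : Set ℂ := Icc (-(m + 2 : ℝ)) (m + 2) ×ℂ Icc (1 / (m + 2 : ℝ)) (m + 2)

lemma isOpen_rect (m : ℕ) : IsOpen (rect m) := isOpen_Ioo.reProdIm isOpen_Ioo

lemma isCompact_crect (m : ℕ) : IsCompact (crect m) := isCompact_Icc.reProdIm isCompact_Icc

lemma rect_subset_crect (m : ℕ) : rect m ⊆ crect m := by
  intro w hw
  rw [rect, Complex.mem_reProdIm] at hw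
  rw [crect, Complex.mem_reProdIm]
  exact ⟨Ioo_subset_Icc_self hw.1, Ioo_subset_Icc_self hw.2⟩

lemma crect_subset (m : ℕ) : crect m ⊆ {w : ℂ | 0 < w.im} := by
  intro w hw
  rw [crect, Complex.mem_reProdIm] at hw
  have h1 : (0 : ℝ) < 1 / (m + 2 : ℝ) := by positivity
  exact lt_of_lt_of_le h1 hw.2.1

lemma convex_rect (m : ℕ) : Convex ℝ (rect m) := by
  have h : rect m = ({w : ℂ | -(m + 2 : ℝ) < w.re} ∩ {w : ℂ | w.re < (m + 2 : ℝ)}) ∩
      ({w : ℂ | 1 / (m + 2 : ℝ) < w.im} ∩ {w : ℂ | w.im < (m + 2 : ℝ)}) := by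
    ext w
    rw [rect, Complex.mem_reProdIm]
    rfl
  rw [h]
  exact ((convex_halfSpace_re_gt _).inter (convex_halfSpace_re_lt _)).inter
    ((convex_halfSpace_im_gt _).inter (convex_halfSpace_im_lt _))

lemma rect_mono {m m' : ℕ} (h : m ≤ m') : rect m ⊆ rect m' := by
  intro w hw
  rw [rect, Complex.mem_reProdIm] at hw ⊢
  have h1 : (m : ℝ) ≤ m' := by exact_mod_cast h
  have h2 : 1 / (m' + 2 : ℝ) ≤ 1 / (m + 2 : ℝ) := by
    apply one_div_le_one_div_of_le (by positivity)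
    linarith
  obtain ⟨⟨a1, a2⟩, ⟨a3, a4⟩⟩ := hw
  refine ⟨⟨?_, ?_⟩, ⟨?_, ?_⟩⟩ <;> linarith

lemma exists_mem_rect {w : ℂ} (hw : 0 < w.im) : ∃ m : ℕ, w ∈ rect m := by
  obtain ⟨m, hm⟩ := exists_nat_gt (max (max |w.re| w.im) (1 / w.im))
  refine ⟨m, ?_⟩
  rw [rect, Complex.mem_reProdIm]
  have h1 : |w.re| < m := lt_of_le_of_lt ((le_max_left _ _).trans (le_max_left _ _)) hm
  have h2 : w.im < m := lt_of_le_of_lt ((le_max_right _ _).trans (le_max_left _ _)) hm
  have h3 : 1 / w.im < m := lt_of_le_of_lt (le_max_right _ _) hm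
  have h4 : 1 / (m + 2 : ℝ) < w.im := by
    rw [one_div_lt (by positivity) hw]
    linarith
  rw [abs_lt] at h1
  refine ⟨⟨?_, ?_⟩, ⟨h4, ?_⟩⟩ <;> linarith

/-! ### The root lemma -/

/-- **Holomorphic roots.** A non-zero holomorphic function on `ℍ` all of whose orders of vanishing
are divisible by `n` is an `n`-th power in `Hol`. -/
theorem exists_root (F : Hol) (hF : F ≠ 0) (n : ℕ) (hn : 0 < n)
    (hdiv : ∀ z, ∃ k : ℕ, Hol.ordAt z F = ((n * k : ℕ) : ℕ∞)) : ∃ H : Hol, H ^ n = F := by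
  classical
  obtain ⟨z₁, hz₁⟩ : ∃ z₁ : ℍ, (F : ℍ → ℂ) z₁ ≠ 0 := by
    by_contra h
    rw [not_exists] at h
    apply hF
    apply Hol.ext
    intro z
    have := h z
    rw [not_not] at this
    exact this
  obtain ⟨m₀, hm₀⟩ := exists_mem_rect z₁.im_pos
  set f : ℂ → ℂ := (F : ℍ → ℂ) ∘ ofComplex with hf
  have hfz₁ : f (z₁ : ℂ) = (F : ℍ → ℂ) z₁ := by
    simp only [hf, Function.comp_apply, ofComplex_apply]
  obtain ⟨ω, hω⟩ : ∃ ω : ℂ, ω ^ n = (F : ℍ → ℂ) z₁ := IsAlgClosed.exists_pow_nat_eq _ hn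
  have hω0 : ω ≠ 0 := by
    rintro rfl
    rw [zero_pow hn.ne'] at hω
    exact hz₁ hω.symm
  have hz : ∀ m, (z₁ : ℂ) ∈ rect (m₀ + m) := fun m => rect_mono (Nat.le_add_right _ _) hm₀
  have key : ∀ m, ∃ h : ℂ → ℂ, DifferentiableOn ℂ h (rect (m₀ + m)) ∧
      (∀ w ∈ rect (m₀ + m), h w ^ n = f w) ∧ h (z₁ : ℂ) = ω := by
    intro m
    obtain ⟨h, hd, hp⟩ := exists_root_on hF hn hdiv (isOpen_rect (m₀ + m)) (convex_rect _)
      ⟨_, hz m⟩ (rect_subset_crect _) (isCompact_crect _) (crect_subset _)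
    have h1 : h (z₁ : ℂ) ^ n = ω ^ n := by
      rw [hp _ (hz m), hω, ofComplex_apply]
    have hh0 : h (z₁ : ℂ) ≠ 0 := by
      intro h0
      rw [h0, zero_pow hn.ne'] at h1
      exact pow_ne_zero n hω0 h1.symm
    have hc : (ω / h (z₁ : ℂ)) ^ n = 1 := by
      rw [div_pow, h1, div_self (pow_ne_zero n hω0)]
    refine ⟨fun w => ω / h (z₁ : ℂ) * h w, hd.const_mul _, ?_, ?_⟩
    · intro w hw
      simp only
      rw [mul_pow, hc, one_mul, hp w hw]
      rfl
    · simp only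
      rw [div_mul_cancel₀ _ hh0]
  choose h hd hp hb using key
  have hcons : ∀ m m', m ≤ m' → EqOn (h m) (h m') (rect (m₀ + m)) := by
    intro m m' hmm'
    have hsub : rect (m₀ + m) ⊆ rect (m₀ + m') := rect_mono (by omega)
    refine eqOn_of_pow_eq hn (isOpen_rect _) (convex_rect _).isPreconnected (hd m)
      ((hd m').mono hsub) (fun w hw => ?_) (hz m) ?_ ?_
    · rw [hp m w hw, hp m' w (hsub hw)]
    · rw [hb, hb]
    · rw [hb]
      exact hω0
  have hidx : ∀ w : ℂ, 0 < w.im → ∃ m, w ∈ rect (m₀ + m) := by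
    intro w hw
    obtain ⟨m, hm⟩ := exists_mem_rect hw
    exact ⟨m, rect_mono (by omega) hm⟩
  set idx : ℂ → ℕ := fun w => if hw : 0 < w.im then Classical.choose (hidx w hw) else 0 with hidxdef
  have hidx_spec : ∀ w (hw : 0 < w.im), w ∈ rect (m₀ + idx w) := by
    intro w hw
    simp only [hidxdef, dif_pos hw]
    exact Classical.choose_spec (hidx w hw)
  set H : ℂ → ℂ := fun w => h (idx w) w with hH
  have hHeq : ∀ m, EqOn H (h m) (rect (m₀ + m)) := by
    intro m w hw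
    have hw' : 0 < w.im := crect_subset _ (rect_subset_crect _ hw)
    rcases le_total (idx w) m with hle | hle
    · exact hcons _ _ hle (hidx_spec w hw')
    · exact (hcons _ _ hle hw).symm
  have hHd : DifferentiableOn ℂ H {w : ℂ | 0 < w.im} := by
    intro w hw
    obtain ⟨m, hm⟩ := hidx w hw
    have hmem := (isOpen_rect (m₀ + m)).mem_nhds hm
    have : DifferentiableAt ℂ H w :=
      ((hd m).differentiableAt hmem).congr_of_eventuallyEq
        (Filter.eventuallyEq_of_mem hmem (hHeq m))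
    exact this.differentiableWithinAt
  have hHp : ∀ w : ℂ, 0 < w.im → H w ^ n = f w := by
    intro w hw
    obtain ⟨m, hm⟩ := hidx w hw
    rw [hHeq m hm, hp m w hm]
  refine ⟨⟨fun z : ℍ => H (z : ℂ), ?_⟩, ?_⟩
  · show MDifferentiable 𝓘(ℂ) 𝓘(ℂ) (fun z : ℍ => H (z : ℂ))
    rw [UpperHalfPlane.mdifferentiable_iff]
    refine hHd.congr ?_
    intro w hw
    simp only [Function.comp_apply]
    rw [ofComplex_apply_of_im_pos hw]
  · apply Hol.ext
    intro z
    show (H (z : ℂ)) ^ n = (F : ℍ → ℂ) z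
    rw [hHp _ z.im_pos, hf, Function.comp_apply, ofComplex_apply]

end Fermat.Agent.S29lib.K1
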