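/-
Block K1 (GalRep project): the character by which an `n`-th root of a `Γ`-invariant holomorphic
function transforms under `Γ`.
-/
import Mathlib
import Fermat.Agent.S29lib.K1.Root

set_option autoImplicit false

namespace Fermat.Agent.S29lib.K1

open Fermat.Agent.ProgramR
open UpperHalfPlane Filter Topology Set
open scoped Manifold MatrixGroups

lemma algebraMap_hol_injective : Function.Injective (algebraMap ℂ Hol) :=
  (algebraMap ℂ Hol).injective

lemma exists_apply_ne_zero {y : Hol} (hy : y ≠ 0) : ∃ z : ℍ, (y : ℍ → ℂ) z ≠ 0 := by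
  by_contra h
  rw [not_exists] at h
  apply hy
  apply Hol.ext
  intro z
  have := h z
  rw [not_not] at this
  exact this

lemma pow_apply (y : Hol) (n : ℕ) (z : ℍ) : ((y ^ n : Hol) : ℍ → ℂ) z = ((y : ℍ → ℂ) z) ^ n :=
  map_pow (Hol.evalAt z) y n

lemma mul_apply (y y' : Hol) (z : ℍ) :
    ((y * y' : Hol) : ℍ → ℂ) z = (y : ℍ → ℂ) z * (y' : ℍ → ℂ) z := rfl

/-- Two holomorphic functions on `ℍ` with the same `n`-th power differ by an `n`-th root of
unity. -/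
theorem exists_const_of_pow_eq {y y' : Hol} (hy : y ≠ 0) {n : ℕ} (hn : 0 < n)
    (h : y' ^ n = y ^ n) : ∃ c : ℂ, c ^ n = 1 ∧ y' = algebraMap ℂ Hol c * y := by
  obtain ⟨z₁, hz₁⟩ := exists_apply_ne_zero hy
  have hpt : ∀ z : ℍ, ((y' : ℍ → ℂ) z) ^ n = ((y : ℍ → ℂ) z) ^ n := by
    intro z
    rw [← pow_apply, ← pow_apply, h]
  set c : ℂ := (y' : ℍ → ℂ) z₁ / (y : ℍ → ℂ) z₁ with hc
  have hcn : c ^ n = 1 := by
    rw [hc, div_pow, hpt z₁, div_self (pow_ne_zero n hz₁)]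
  have hc0 : c ≠ 0 := by
    rintro h0
    rw [h0, zero_pow hn.ne'] at hcn
    exact zero_ne_one hcn
  refine ⟨c, hcn, ?_⟩
  have hV : IsOpen {w : ℂ | 0 < w.im} := isOpen_upperHalfPlaneSet
  have hVc : IsPreconnected {w : ℂ | 0 < w.im} := (convex_halfSpace_im_gt 0).isPreconnected
  have hd₁ : DifferentiableOn ℂ ((y' : ℍ → ℂ) ∘ ofComplex) {w : ℂ | 0 < w.im} :=
    UpperHalfPlane.mdifferentiable_iff.1 y'.2
  have hd₂ : DifferentiableOn ℂ (fun w => c * ((y : ℍ → ℂ) ∘ ofComplex) w) {w : ℂ | 0 < w.im} :=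
    (UpperHalfPlane.mdifferentiable_iff.1 y.2).const_mul c
  have key := eqOn_of_pow_eq hn hV hVc hd₁ hd₂ (w₀ := (z₁ : ℂ)) ?_ z₁.im_pos ?_ ?_
  · apply Hol.ext
    intro z
    have := key z.im_pos
    simp only [Function.comp_apply, ofComplex_apply] at this
    rw [this]
    rfl
  · intro w _
    simp only [Function.comp_apply]
    rw [mul_pow, hcn, one_mul, hpt]
  · simp only [Function.comp_apply, ofComplex_apply]
    rw [hc, div_mul_cancel₀ _ hz₁]
  · simp only [Function.comp_apply, ofComplex_apply]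
    exact mul_ne_zero hc0 hz₁

/-- `y` transforms under `Γ` by the character `χ`: `y ∘ γ = χ(γ) · y`. -/
def Transforms (Γ : Subgroup SL(2, ℤ)) (y : Hol) (χ : Γ →* ℂˣ) : Prop :=
  ∀ γ : Γ, Hol.slComp (γ : SL(2, ℤ)) y = algebraMap ℂ Hol ((χ γ : ℂˣ) : ℂ) * y

namespace Transforms

variable {Γ : Subgroup SL(2, ℤ)}

lemma apply {y : Hol} {χ : Γ →* ℂˣ} (h : Transforms Γ y χ) (γ : Γ) (z : ℍ) :
    (y : ℍ → ℂ) ((γ : SL(2, ℤ)) • z) = ((χ γ : ℂˣ) : ℂ) * (y : ℍ → ℂ) z := by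
  have := congrArg (fun f : Hol => (f : ℍ → ℂ) z) (h γ)
  exact this

lemma of_apply {y : Hol} {χ : Γ →* ℂˣ}
    (h : ∀ (γ : Γ) (z : ℍ), (y : ℍ → ℂ) ((γ : SL(2, ℤ)) • z) = ((χ γ : ℂˣ) : ℂ) * (y : ℍ → ℂ) z) :
    Transforms Γ y χ := by
  intro γ
  apply Hol.ext
  intro z
  rw [Hol.slComp_apply, h γ z]
  rfl

/-- The character is determined by the function. -/
lemma unique {y : Hol} (hy : y ≠ 0) {χ χ' : Γ →* ℂˣ} (h : Transforms Γ y χ)
    (h' : Transforms Γ y χ') : χ = χ' := by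
  ext γ
  have h1 : algebraMap ℂ Hol ((χ γ : ℂˣ) : ℂ) * y = algebraMap ℂ Hol ((χ' γ : ℂˣ) : ℂ) * y := by
    rw [← h γ, ← h' γ]
  exact algebraMap_hol_injective (mul_right_cancel₀ hy h1)

lemma mul {y y' : Hol} {χ χ' : Γ →* ℂˣ} (h : Transforms Γ y χ) (h' : Transforms Γ y' χ') :
    Transforms Γ (y * y') (χ * χ') := by
  intro γ
  rw [map_mul, h γ, h' γ, MonoidHom.mul_apply, Units.val_mul, map_mul]
  ring

lemma one_of_invariant {b : Hol} (hb : ∀ γ ∈ Γ, Hol.slComp γ b = b) : Transforms Γ b 1 := by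
  intro γ
  rw [hb γ γ.2, MonoidHom.one_apply, Units.val_one, map_one, one_mul]

lemma invariant_of_one {y : Hol} (h : Transforms Γ y 1) : ∀ γ ∈ Γ, Hol.slComp γ y = y := by
  intro γ hγ
  have := h ⟨γ, hγ⟩
  rwa [MonoidHom.one_apply, Units.val_one, map_one, one_mul] at this

lemma pow {y : Hol} {χ : Γ →* ℂˣ} (h : Transforms Γ y χ) (k : ℕ) :
    Transforms Γ (y ^ k) (χ ^ k) := by
  intro γ
  rw [map_pow, h γ, mul_pow, ← map_pow, MonoidHom.pow_apply, Units.val_pow_eq_pow_val]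

lemma const_mul {y : Hol} {χ : Γ →* ℂˣ} (h : Transforms Γ y χ) (c : ℂ) :
    Transforms Γ (algebraMap ℂ Hol c * y) χ := by
  intro γ
  rw [map_mul, h γ, Hol.slComp_const]
  ring

/-- Another `n`-th root of the same function transforms by the same character. -/
lemma of_pow_eq {y y' : Hol} (hy : y ≠ 0) {n : ℕ} (hn : 0 < n) (hpow : y' ^ n = y ^ n)
    {χ : Γ →* ℂˣ} (h : Transforms Γ y χ) : Transforms Γ y' χ := by
  obtain ⟨c, -, rfl⟩ := exists_const_of_pow_eq hy hn hpow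
  exact h.const_mul c

/-- If `y ^ n` is invariant, the character has values in the `n`-th roots of unity. -/
lemma pow_eq_one {y : Hol} (hy : y ≠ 0) {χ : Γ →* ℂˣ} (h : Transforms Γ y χ) {n : ℕ}
    (hinv : ∀ γ ∈ Γ, Hol.slComp γ (y ^ n) = y ^ n) (γ : Γ) : χ γ ^ n = 1 := by
  have h1 := unique (pow_ne_zero n hy) (h.pow n) (one_of_invariant hinv)
  have h2 := congrArg (fun ψ : Γ →* ℂˣ => ψ γ) h1
  simpa [MonoidHom.pow_apply] using h2

/-- Cancellation of invariant factors. -/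
lemma eq_of_mul_eq {y y' b b' : Hol} (hy : y ≠ 0) (hb : b ≠ 0)
    (hbinv : ∀ γ ∈ Γ, Hol.slComp γ b = b) (hb'inv : ∀ γ ∈ Γ, Hol.slComp γ b' = b')
    {χ χ' : Γ →* ℂˣ} (h : Transforms Γ y χ) (h' : Transforms Γ y' χ') (heq : y * b = y' * b') :
    χ = χ' := by
  have h1 : Transforms Γ (y * b) χ := by
    intro γ
    rw [map_mul, h γ, hbinv γ γ.2, mul_assoc]
  have h2 : Transforms Γ (y' * b') χ' := by
    intro γ
    rw [map_mul, h' γ, hb'inv γ γ.2, mul_assoc]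
  rw [← heq] at h2
  exact unique (mul_ne_zero hy hb) h1 h2

end Transforms

/-- **Existence of the character.** If `y ≠ 0` and `y ^ n` is `Γ`-invariant, then `y` transforms
under `Γ` by a character with values in the `n`-th roots of unity. -/
theorem exists_character (Γ : Subgroup SL(2, ℤ)) {y : Hol} (hy : y ≠ 0) {n : ℕ} (hn : 0 < n)
    (hinv : ∀ γ ∈ Γ, Hol.slComp γ (y ^ n) = y ^ n) :
    ∃ χ : Γ →* ℂˣ, (∀ γ, χ γ ^ n = 1) ∧ Transforms Γ y χ := by
  have h1 : ∀ γ : Γ, ∃ c : ℂ, c ^ n = 1 ∧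
      Hol.slComp (γ : SL(2, ℤ)) y = algebraMap ℂ Hol c * y := by
    intro γ
    apply exists_const_of_pow_eq hy hn
    rw [← map_pow, hinv γ γ.2]
  choose c hc hcy using h1
  have hc0 : ∀ γ, c γ ≠ 0 := by
    intro γ h0
    have := hc γ
    rw [h0, zero_pow hn.ne'] at this
    exact zero_ne_one this
  have hmul : ∀ γ γ' : Γ, c (γ * γ') = c γ * c γ' := by
    intro γ γ'
    have h2 : Hol.slComp ((γ * γ' : Γ) : SL(2, ℤ)) y =
        algebraMap ℂ Hol (c γ * c γ') * y := by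
      rw [Subgroup.coe_mul, Hol.slComp_mul, hcy γ, map_mul, Hol.slComp_const, hcy γ', map_mul]
      ring
    rw [hcy (γ * γ')] at h2
    exact algebraMap_hol_injective (mul_right_cancel₀ hy h2)
  set χ : Γ →* ℂˣ := MonoidHom.mk' (fun γ => Units.mk0 (c γ) (hc0 γ)) (by
    intro γ γ'
    apply Units.ext
    simp only [Units.val_mk0, Units.val_mul]
    exact hmul γ γ') with hχ
  have hT : Transforms Γ y χ := by
    intro γ
    rw [hcy γ]
    rfl
  exact ⟨χ, hT.pow_eq_one hy hinv, hT⟩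

/-- **Root and character.** A non-zero `Γ`-invariant holomorphic function all of whose orders are
divisible by `n` has a holomorphic `n`-th root, which transforms by a character of `Γ` with
values in the `n`-th roots of unity. -/
theorem exists_root_character (Γ : Subgroup SL(2, ℤ)) {G : Hol} (hG : G ≠ 0)
    (hinv : ∀ γ ∈ Γ, Hol.slComp γ G = G) {n : ℕ} (hn : 0 < n)
    (hdiv : ∀ z, ∃ k : ℕ, Hol.ordAt z G = ((n * k : ℕ) : ℕ∞)) :
    ∃ (y : Hol) (χ : Γ →* ℂˣ), y ^ n = G ∧ y ≠ 0 ∧ (∀ γ, χ γ ^ n = 1) ∧ Transforms Γ y χ := by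
  obtain ⟨y, hy⟩ := exists_root G hG n hn hdiv
  have hy0 : y ≠ 0 := by
    rintro rfl
    rw [zero_pow hn.ne'] at hy
    exact hG hy.symm
  obtain ⟨χ, hχ, hT⟩ := exists_character Γ hy0 hn (by rw [hy]; exact hinv)
  exact ⟨y, χ, hy, hy0, hχ, hT⟩

end Fermat.Agent.S29lib.K1
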