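/-
Block K1 (GalRep project): the Kummer character of a function on `Γ \ ℍ` whose divisor is
divisible by `n`.

`IsKum Γ n f χ` : the element `f` of the fraction field of `WH0 Γ` has Kummer character `χ`, i.e.
`f · bⁿ = G` with `b, G ∈ WH0 Γ` and `G = yⁿ` for a holomorphic `y` on `ℍ` transforming under `Γ`
by the character `χ`.
-/
import Mathlib
import Fermat.Agent.S29lib.K1.Character
import Fermat.Agent.ProgramR.Analytic.WH0Closed

set_option autoImplicit false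

namespace Fermat.Agent.S29lib.K1

open Fermat.Agent.ProgramR
open UpperHalfPlane Polynomial
open scoped Manifold MatrixGroups

variable (Γ : Subgroup SL(2, ℤ))

lemma toHol_invariant (b : WH0 Γ) : ∀ γ ∈ Γ, Hol.slComp γ (WH0.toHol Γ b) = WH0.toHol Γ b :=
  fun γ hγ => Hol.ext (fun z => b.2.smul_eq γ hγ z)

lemma toHol_ne_zero {b : WH0 Γ} (hb : b ≠ 0) : WH0.toHol Γ b ≠ 0 := by
  intro h
  apply hb
  apply WH0.toHol_injective Γ
  rw [h, map_zero]

/-- An invariant holomorphic `n`-th root of an element of `WH0 Γ` lies in `WH0 Γ`. -/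
theorem exists_wh0_of_pow_eq {y : Hol} (hinv : ∀ γ ∈ Γ, Hol.slComp γ y = y) {n : ℕ} (hn : 0 < n)
    {G : WH0 Γ} (h : y ^ n = WH0.toHol Γ G) : ∃ Y : WH0 Γ, WH0.toHol Γ Y = y := by
  have hP : (X ^ n - C G : (WH0 Γ)[X]).Monic := monic_X_pow_sub_C G hn.ne'
  have hroot : Polynomial.eval₂ (WH0.toHol Γ).toRingHom y (X ^ n - C G : (WH0 Γ)[X]) = 0 := by
    rw [eval₂_sub, eval₂_pow, eval₂_X, eval₂_C, h]
    exact sub_self _
  obtain ⟨m, hm⟩ := exists_bdd_of_monic_root Γ y _ hP hroot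
  refine ⟨⟨(y : ℍ → ℂ), ⟨y.2, fun γ hγ z => ?_, ⟨m, hm⟩⟩⟩, Hol.ext (fun _ => rfl)⟩
  have := congrArg (fun f : Hol => (f : ℍ → ℂ) z) (hinv γ hγ)
  exact this

variable {F : Type*} [Field F] [Algebra (WH0 Γ) F] [IsFractionRing (WH0 Γ) F]

/-- `f` has Kummer character `χ` at exponent `n`. -/
def IsKum (n : ℕ) (f : F) (χ : Γ →* ℂˣ) : Prop :=
  ∃ (G b : WH0 Γ) (y : Hol), b ≠ 0 ∧ G ≠ 0 ∧
    algebraMap (WH0 Γ) F G = f * (algebraMap (WH0 Γ) F b) ^ n ∧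
    y ^ n = WH0.toHol Γ G ∧ Transforms Γ y χ

/-- "All orders on `ℍ` are divisible by `n`": the hypothesis under which a Kummer character
exists. -/
def HDiv (n : ℕ) (f : F) : Prop :=
  ∃ G b : WH0 Γ, b ≠ 0 ∧ algebraMap (WH0 Γ) F G = f * (algebraMap (WH0 Γ) F b) ^ n ∧
    ∀ z : ℍ, ∃ k : ℕ, Hol.ordAt z (WH0.toHol Γ G) = ((n * k : ℕ) : ℕ∞)

variable {Γ}

lemma algebraMap_ne_zero' {b : WH0 Γ} (hb : b ≠ 0) : algebraMap (WH0 Γ) F b ≠ 0 := by
  intro h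
  apply hb
  apply IsFractionRing.injective (WH0 Γ) F
  rw [h, map_zero]

lemma IsKum.ne_zero {n : ℕ} {f : F} {χ : Γ →* ℂˣ} (h : IsKum Γ n f χ) : f ≠ 0 := by
  obtain ⟨G, b, y, hb, hG, hGf, -, -⟩ := h
  rintro rfl
  rw [zero_mul] at hGf
  exact algebraMap_ne_zero' hG hGf

lemma IsKum.root_ne_zero {n : ℕ} (hn : 0 < n) {G : WH0 Γ} (hG : G ≠ 0) {y : Hol}
    (hy : y ^ n = WH0.toHol Γ G) : y ≠ 0 := by
  rintro rfl
  rw [zero_pow hn.ne'] at hy
  exact toHol_ne_zero Γ hG hy.symm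

/-- The Kummer character has values in the `n`-th roots of unity. -/
lemma IsKum.pow_eq_one {n : ℕ} {f : F} {χ : Γ →* ℂˣ} (h : IsKum Γ n f χ) (γ : Γ) :
    χ γ ^ n = 1 := by
  rcases Nat.eq_zero_or_pos n with rfl | hn
  · exact pow_zero _
  obtain ⟨G, b, y, hb, hG, hGf, hy, hT⟩ := h
  exact hT.pow_eq_one (IsKum.root_ne_zero hn hG hy) (by rw [hy]; exact toHol_invariant Γ G) γ

/-- **Uniqueness** of the Kummer character. -/
theorem IsKum.unique {n : ℕ} (hn : 0 < n) {f : F} {χ χ' : Γ →* ℂˣ} (h : IsKum Γ n f χ)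
    (h' : IsKum Γ n f χ') : χ = χ' := by
  obtain ⟨G, b, y, hb, hG, hGf, hy, hT⟩ := h
  obtain ⟨G', b', y', hb', hG', hGf', hy', hT'⟩ := h'
  have hy0 := IsKum.root_ne_zero hn hG hy
  have hy0' := IsKum.root_ne_zero hn hG' hy'
  -- `G * b' ^ n = G' * b ^ n`
  have h1 : G * b' ^ n = G' * b ^ n := by
    apply IsFractionRing.injective (WH0 Γ) F
    rw [map_mul, map_mul, map_pow, map_pow, hGf, hGf']
    ring
  have h2 : (y' * WH0.toHol Γ b) ^ n = (y * WH0.toHol Γ b') ^ n := by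
    rw [mul_pow, mul_pow, hy, hy', ← map_pow, ← map_pow, ← map_mul, ← map_mul, h1]
  have hT1 : Transforms Γ (y * WH0.toHol Γ b') χ := by
    intro γ
    rw [map_mul, hT γ, toHol_invariant Γ b' γ γ.2, mul_assoc]
  have hT2 : Transforms Γ (y' * WH0.toHol Γ b) χ' := by
    intro γ
    rw [map_mul, hT' γ, toHol_invariant Γ b γ γ.2, mul_assoc]
  have hT3 : Transforms Γ (y' * WH0.toHol Γ b) χ :=
    Transforms.of_pow_eq (mul_ne_zero hy0 (toHol_ne_zero Γ hb')) hn h2 hT1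
  exact Transforms.unique (mul_ne_zero hy0' (toHol_ne_zero Γ hb)) hT3 hT2

/-- **Existence** of the Kummer character. -/
theorem HDiv.exists_isKum {n : ℕ} (hn : 0 < n) {f : F} (hf : f ≠ 0) (h : HDiv Γ n f) :
    ∃ χ : Γ →* ℂˣ, IsKum Γ n f χ := by
  obtain ⟨G, b, hb, hGf, hdiv⟩ := h
  have hG : G ≠ 0 := by
    rintro rfl
    rw [map_zero] at hGf
    exact mul_ne_zero hf (pow_ne_zero n (algebraMap_ne_zero' hb)) hGf.symm
  obtain ⟨y, χ, hy, -, -, hT⟩ :=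
    exists_root_character Γ (toHol_ne_zero Γ hG) (toHol_invariant Γ G) hn hdiv
  exact ⟨χ, G, b, y, hb, hG, hGf, hy, hT⟩

/-- **Multiplicativity.** -/
theorem IsKum.mul {n : ℕ} {f f' : F} {χ χ' : Γ →* ℂˣ} (h : IsKum Γ n f χ)
    (h' : IsKum Γ n f' χ') : IsKum Γ n (f * f') (χ * χ') := by
  obtain ⟨G, b, y, hb, hG, hGf, hy, hT⟩ := h
  obtain ⟨G', b', y', hb', hG', hGf', hy', hT'⟩ := h'
  refine ⟨G * G', b * b', y * y', mul_ne_zero hb hb', mul_ne_zero hG hG', ?_, ?_, hT.mul hT'⟩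
  · rw [map_mul, map_mul, hGf, hGf']
    ring
  · rw [mul_pow, hy, hy', map_mul]

/-- `n`-th powers have trivial Kummer character. -/
theorem isKum_pow {n : ℕ} {h : F} (hh : h ≠ 0) : IsKum Γ n (h ^ n) 1 := by
  obtain ⟨c, d, hd, rfl⟩ := IsFractionRing.div_surjective (WH0 Γ) h
  have hd0 : d ≠ 0 := nonZeroDivisors.ne_zero hd
  have hc0 : c ≠ 0 := by
    rintro rfl
    rw [map_zero, zero_div] at hh
    exact hh rfl
  refine ⟨c ^ n, d, WH0.toHol Γ c, hd0, pow_ne_zero n hc0, ?_, ?_,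
    Transforms.one_of_invariant (toHol_invariant Γ c)⟩
  · rw [map_pow, div_pow, div_mul_cancel₀ _ (pow_ne_zero n (algebraMap_ne_zero' hd0))]
  · rw [map_pow]

/-- Constants have trivial Kummer character. -/
theorem isKum_const {n : ℕ} (hn : 0 < n) {c : ℂ} (hc : c ≠ 0) :
    IsKum Γ n (algebraMap (WH0 Γ) F (algebraMap ℂ (WH0 Γ) c)) 1 := by
  obtain ⟨e, he⟩ : ∃ e : ℂ, e ^ n = c := IsAlgClosed.exists_pow_nat_eq c hn
  have he0 : e ≠ 0 := by
    rintro rfl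
    rw [zero_pow hn.ne'] at he
    exact hc he.symm
  have h1 : algebraMap (WH0 Γ) F (algebraMap ℂ (WH0 Γ) c) =
      (algebraMap (WH0 Γ) F (algebraMap ℂ (WH0 Γ) e)) ^ n := by
    rw [← map_pow, ← map_pow, he]
  rw [h1]
  apply isKum_pow
  apply algebraMap_ne_zero'
  intro h0
  apply he0
  apply (algebraMap ℂ (WH0 Γ)).injective
  rw [h0, map_zero]

/-- **Kernel.** A function with trivial Kummer character is an `n`-th power. -/
theorem IsKum.exists_pow_eq {n : ℕ} (hn : 0 < n) {f : F} (h : IsKum Γ n f 1) :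
    ∃ g : F, g ≠ 0 ∧ g ^ n = f := by
  obtain ⟨G, b, y, hb, hG, hGf, hy, hT⟩ := h
  obtain ⟨Y, hY⟩ := exists_wh0_of_pow_eq Γ hT.invariant_of_one hn hy
  have hYG : Y ^ n = G := by
    apply WH0.toHol_injective Γ
    rw [map_pow, hY, hy]
  have hY0 : Y ≠ 0 := by
    rintro rfl
    rw [zero_pow hn.ne'] at hYG
    exact hG hYG.symm
  have hb' := algebraMap_ne_zero' (F := F) hb
  refine ⟨algebraMap (WH0 Γ) F Y / algebraMap (WH0 Γ) F b,
    div_ne_zero (algebraMap_ne_zero' hY0) hb', ?_⟩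
  rw [div_pow, ← map_pow, hYG, hGf, mul_div_assoc, div_self (pow_ne_zero n hb'), mul_one]

/-- Change of exponent: if `f` has Kummer character `χ` at exponent `n * m`, it has Kummer
character `χ ^ m` at exponent `n`. -/
theorem IsKum.of_mul {n m : ℕ} {f : F} {χ : Γ →* ℂˣ} (h : IsKum Γ (n * m) f χ) :
    IsKum Γ n f (χ ^ m) := by
  obtain ⟨G, b, y, hb, hG, hGf, hy, hT⟩ := h
  refine ⟨G, b ^ m, y ^ m, pow_ne_zero m hb, hG, ?_, ?_, hT.pow m⟩
  · rw [hGf, map_pow, ← pow_mul, mul_comm m n]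
  · rw [← pow_mul, mul_comm m n, hy]

/-- Inverses. -/
theorem IsKum.inv {n : ℕ} (hn : 0 < n) {f : F} {χ : Γ →* ℂˣ} (h : IsKum Γ n f χ) :
    IsKum Γ n f⁻¹ χ⁻¹ := by
  have hχ := h.pow_eq_one
  have hf := h.ne_zero
  obtain ⟨G, b, y, hb, hG, hGf, hy, hT⟩ := h
  have hT' : Transforms Γ (WH0.toHol Γ b * y ^ (n - 1)) χ⁻¹ := by
    intro γ
    rw [map_mul, toHol_invariant Γ b γ γ.2, hT.pow (n - 1) γ]
    have h1 : ((χ ^ (n - 1)) γ : ℂˣ) = (χ⁻¹) γ := by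
      rw [MonoidHom.pow_apply, MonoidHom.inv_apply]
      apply eq_inv_of_mul_eq_one_left
      rw [← pow_succ, Nat.sub_add_cancel hn, hχ γ]
    rw [h1]
    ring
  refine ⟨b ^ n * G ^ (n - 1), G, WH0.toHol Γ b * y ^ (n - 1), hG,
    mul_ne_zero (pow_ne_zero n hb) (pow_ne_zero _ hG), ?_, ?_, hT'⟩
  · have hG' := algebraMap_ne_zero' (F := F) hG
    have hb' := algebraMap_ne_zero' (F := F) hb
    have h2 : (algebraMap (WH0 Γ) F G) ^ n =
        (algebraMap (WH0 Γ) F G) ^ (n - 1) * algebraMap (WH0 Γ) F G := by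
      rw [← pow_succ, Nat.sub_add_cancel hn]
    rw [map_mul, map_pow, map_pow, h2, hGf]
    field_simp
  · rw [mul_pow, ← pow_mul, mul_comm (n - 1) n, pow_mul, hy, map_mul, map_pow, map_pow]

end Fermat.Agent.S29lib.K1
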