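/-
Block K1 (GalRep project): the abstract Kummer map on the `n`-torsion of `Pic⁰` of a curve.

Given a relation `R f χ` ("the function `f` has Kummer character `χ`") between non-zero functions
and elements of a commutative group `X`, which is functional, multiplicative, defined on all
functions whose divisor is divisible by `n`, trivial on `n`-th powers and with kernel the `n`-th
powers, we get an injective homomorphism `Pic⁰[n] → X`.
-/
import Mathlib
import Fermat.Prelude.Def_AlgebraicCurve_DivisorClassGroup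

set_option autoImplicit false

namespace Fermat.Agent.S29lib.K1

open AlgebraicCurve

universe u v w

variable {K : Type u} {F : Type v} [Field K] [Field F] [Algebra K F]

/-- The abstract hypotheses on a Kummer relation at exponent `n`. -/
structure KummerRel (K : Type u) (F : Type v) [Field K] [Field F] [Algebra K F] (n : ℕ)
    {X : Type w} [CommGroup X] (R : F → X → Prop) : Prop where
  unique : ∀ f χ χ', R f χ → R f χ' → χ = χ'
  exists_of_dvd : ∀ f : F, f ≠ 0 → (∀ v : Place K F, (n : ℤ) ∣ v.ord f) → ∃ χ, R f χ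
  mul : ∀ f f' χ χ', R f χ → R f' χ' → R (f * f') (χ * χ')
  pow : ∀ h : F, h ≠ 0 → R (h ^ n) 1
  ker : ∀ f : F, R f 1 → ∃ g : F, g ≠ 0 ∧ g ^ n = f

section

variable {n : ℕ} {X : Type w} [CommGroup X] {R : F → X → Prop}

/-- The relation induced on `Pic⁰`. -/
def PicRel (K : Type u) {F : Type v} [Field K] [Field F] [Algebra K F] (n : ℕ)
    {X : Type w} (R : F → X → Prop) (x : Pic0 K F) (χ : X) : Prop :=
  ∃ (D : Divisor.degZero (K := K) (F := F)) (f : F), Pic0.mk D = x ∧ f ≠ 0 ∧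
    (∀ v : Place K F, (n : ℤ) * (D : Divisor K F) v = v.ord f) ∧ R f χ

lemma mk_eq_zero_iff (D : Divisor.degZero (K := K) (F := F)) :
    Pic0.mk D = 0 ↔ Divisor.IsPrincipal (D : Divisor K F) := by
  unfold Pic0.mk
  rw [QuotientAddGroup.eq_zero_iff, AddSubgroup.mem_addSubgroupOf]
  rfl

lemma mk_sub (D E : Divisor.degZero (K := K) (F := F)) :
    Pic0.mk (D - E) = Pic0.mk D - Pic0.mk E := rfl

lemma mk_zsmul (m : ℤ) (D : Divisor.degZero (K := K) (F := F)) :
    Pic0.mk (m • D) = m • Pic0.mk D := rfl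

variable [IsAlgClosed K]

lemma KummerRel.const (hR : KummerRel K F n R) (hn : 0 < n) {c : K} (hc : c ≠ 0) :
    R (algebraMap K F c) 1 := by
  obtain ⟨e, he⟩ : ∃ e : K, e ^ n = c := IsAlgClosed.exists_pow_nat_eq c hn
  have he0 : e ≠ 0 := by
    rintro rfl
    rw [zero_pow hn.ne'] at he
    exact hc he.symm
  rw [← he, map_pow]
  apply hR.pow
  intro h0
  apply he0
  apply (algebraMap K F).injective
  rw [h0, map_zero]

variable (hconst : ∀ f : F, f ≠ 0 → (∀ v : Place K F, v.ord f = 0) →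
  ∃ c : K, algebraMap K F c = f)

include hconst

omit [IsAlgClosed K] hconst in
lemma PicRel.exists (hR : KummerRel K F n R) {x : Pic0 K F}
    (hx : x ∈ Pic0.torsion K F n) : ∃ χ, PicRel K n R x χ := by
  obtain ⟨D, rfl⟩ := Pic0.mk_surjective x
  rw [Pic0.mem_torsion, ← mk_zsmul, mk_eq_zero_iff] at hx
  obtain ⟨f, hf, hDf⟩ := hx
  have hDf' : ∀ v : Place K F, (n : ℤ) * (D : Divisor K F) v = v.ord f := by
    intro v
    rw [← hDf v]
    simp
  obtain ⟨χ, hχ⟩ := hR.exists_of_dvd f hf (fun v => ⟨_, (hDf' v).symm⟩)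
  exact ⟨χ, D, f, rfl, hf, hDf', hχ⟩

lemma PicRel.unique (hR : KummerRel K F n R) (hn : 0 < n) {x : Pic0 K F} {χ χ' : X}
    (h : PicRel K n R x χ) (h' : PicRel K n R x χ') : χ = χ' := by
  obtain ⟨D, f, hD, hf, hDf, hχ⟩ := h
  obtain ⟨D', f', hD', hf', hDf', hχ'⟩ := h'
  have h1 : Pic0.mk (D - D') = 0 := by rw [mk_sub, hD, hD', sub_self]
  rw [mk_eq_zero_iff] at h1
  obtain ⟨h, hh, hDh⟩ := h1
  -- `f = c * f' * h ^ n`
  have hq : ∀ v : Place K F, v.ord (f / (f' * h ^ n)) = 0 := by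
    intro v
    have hhn : h ^ n ≠ 0 := pow_ne_zero n hh
    rw [div_eq_mul_inv, v.ord_mul hf (inv_ne_zero (mul_ne_zero hf' hhn)), v.ord_inv,
      v.ord_mul hf' hhn, ← zpow_natCast, v.ord_zpow, ← hDf v, ← hDf' v, ← hDh v]
    simp only [AddSubgroupClass.coe_sub, Finsupp.coe_sub, Pi.sub_apply]
    ring
  obtain ⟨c, hc⟩ := hconst _ (div_ne_zero hf (mul_ne_zero hf' (pow_ne_zero n hh))) hq
  have hc0 : c ≠ 0 := by
    rintro rfl
    rw [map_zero] at hc
    exact div_ne_zero hf (mul_ne_zero hf' (pow_ne_zero n hh)) hc.symm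
  have hfe : f = algebraMap K F c * (f' * h ^ n) := by
    rw [hc, div_mul_cancel₀ _ (mul_ne_zero hf' (pow_ne_zero n hh))]
  have h2 : R f (1 * (χ' * 1)) := by
    rw [hfe]
    exact hR.mul _ _ _ _ (hR.const hn hc0) (hR.mul _ _ _ _ hχ' (hR.pow h hh))
  rw [mul_one, one_mul] at h2
  exact hR.unique f χ χ' hχ h2

omit [IsAlgClosed K] hconst in
lemma PicRel.add (hR : KummerRel K F n R) {x x' : Pic0 K F} {χ χ' : X}
    (h : PicRel K n R x χ) (h' : PicRel K n R x' χ') : PicRel K n R (x + x') (χ * χ') := by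
  obtain ⟨D, f, hD, hf, hDf, hχ⟩ := h
  obtain ⟨D', f', hD', hf', hDf', hχ'⟩ := h'
  refine ⟨D + D', f * f', by rw [Pic0.mk_add, hD, hD'], mul_ne_zero hf hf', ?_,
    hR.mul _ _ _ _ hχ hχ'⟩
  intro v
  rw [v.ord_mul hf hf', ← hDf v, ← hDf' v]
  simp only [AddSubgroup.coe_add, Finsupp.coe_add, Pi.add_apply]
  ring

omit [IsAlgClosed K] hconst in
lemma PicRel.eq_zero (hR : KummerRel K F n R) (hn : 0 < n) {x : Pic0 K F}
    (h : PicRel K n R x 1) : x = 0 := by
  obtain ⟨D, f, rfl, hf, hDf, hχ⟩ := h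
  obtain ⟨g, hg, rfl⟩ := hR.ker f hχ
  rw [mk_eq_zero_iff]
  refine ⟨g, hg, fun v => ?_⟩
  have h1 := hDf v
  rw [← zpow_natCast, v.ord_zpow] at h1
  exact mul_left_cancel₀ (Nat.cast_ne_zero.2 hn.ne') h1

/-- **The abstract Kummer map** on `Pic⁰[n]`. -/
theorem exists_kummerMap (hR : KummerRel K F n R) (hn : 0 < n) :
    ∃ κ : Pic0.torsion K F n →+ Additive X, Function.Injective κ ∧
      ∀ x : Pic0.torsion K F n, PicRel K n R (x : Pic0 K F) (Additive.toMul (κ x)) := by
  classical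
  have hex : ∀ x : Pic0.torsion K F n, ∃ χ, PicRel K n R (x : Pic0 K F) χ :=
    fun x => PicRel.exists hR x.2
  choose k hk using hex
  refine ⟨AddMonoidHom.mk' (fun x => Additive.ofMul (k x)) ?_, ?_, fun x => hk x⟩
  · intro x x'
    have h1 : PicRel K n R ((x + x' : Pic0.torsion K F n) : Pic0 K F) (k x * k x') := by
      rw [AddSubgroup.coe_add]
      exact PicRel.add hR (hk x) (hk x')
    have h2 := PicRel.unique hconst hR hn (hk (x + x')) h1
    show Additive.ofMul (k (x + x')) = Additive.ofMul (k x) + Additive.ofMul (k x')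
    rw [h2]
    rfl
  · rw [injective_iff_map_eq_zero]
    intro x hx
    have h1 : k x = 1 := hx
    have h2 := hk x
    rw [h1] at h2
    exact Subtype.ext (PicRel.eq_zero hR hn h2)

omit [IsAlgClosed K] hconst in
/-- Change of exponent: if the relation `R'` at exponent `n * d` refines to `R` at exponent `n`
by `χ ↦ χ ^ d`, the same holds on `Pic⁰`. -/
lemma PicRel.of_mul {d : ℕ} {R' : F → X → Prop} (hRR' : ∀ f χ, R' f χ → R f (χ ^ d))
    {x : Pic0 K F} {χ : X} (h : PicRel K (n * d) R' x χ) :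
    PicRel K n R ((d : ℤ) • x) (χ ^ d) := by
  obtain ⟨D, f, rfl, hf, hDf, hχ⟩ := h
  refine ⟨(d : ℤ) • D, f, mk_zsmul _ _, hf, fun v => ?_, hRR' f χ hχ⟩
  rw [← hDf v]
  simp only [AddSubgroup.coe_zsmul, Finsupp.coe_smul, Pi.smul_apply, smul_eq_mul]
  push_cast
  ring

omit [IsAlgClosed K] hconst in
/-- Every function whose divisor is divisible by `n` defines a class in `Pic⁰[n]`. -/
lemma PicRel.exists_class [HasPrincipalDivisors K F] (hn : 0 < n) {f : F} (hf : f ≠ 0)
    (hdvd : ∀ v : Place K F, (n : ℤ) ∣ v.ord f) {χ : X} (hχ : R f χ) :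
    ∃ x : Pic0 K F, x ∈ Pic0.torsion K F n ∧ PicRel K n R x χ := by
  classical
  obtain ⟨D₀, hD₀, hdeg⟩ := HasPrincipalDivisors.exists_divisor (K := K) f hf
  set D : Divisor K F := D₀.mapRange (fun a : ℤ => a / (n : ℤ)) (by simp) with hD
  have hnD : ∀ v : Place K F, (n : ℤ) * D v = v.ord f := by
    intro v
    rw [hD, Finsupp.mapRange_apply, hD₀ v]
    exact Int.mul_ediv_cancel' (hdvd v)
  have hnD' : (n : ℤ) • D = D₀ := by
    ext v
    rw [Finsupp.smul_apply, smul_eq_mul, hnD v, hD₀ v]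
  have hdegD : Divisor.degree D = 0 := by
    have h1 : (n : ℤ) • Divisor.degree D = 0 := by
      rw [← map_zsmul, hnD', hdeg]
    rcases smul_eq_zero.1 h1 with h | h
    · exact absurd h (Nat.cast_ne_zero.2 hn.ne')
    · exact h
  refine ⟨Pic0.mk ⟨D, hdegD⟩, ?_, ⟨D, hdegD⟩, f, rfl, hf, hnD, hχ⟩
  rw [Pic0.mem_torsion, ← mk_zsmul, mk_eq_zero_iff]
  refine ⟨f, hf, fun v => ?_⟩
  rw [← hnD v]
  simp

/-- **The abstract Kummer isomorphism**: if moreover the characters of functions with divisor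
divisible by `n` are exactly the elements of a subgroup `Y`, then `Pic⁰[n] ≃ Y`. -/
theorem exists_kummerEquiv [HasPrincipalDivisors K F] (hR : KummerRel K F n R) (hn : 0 < n)
    (Y : Subgroup X)
    (hY : ∀ f χ, f ≠ 0 → (∀ v : Place K F, (n : ℤ) ∣ v.ord f) → R f χ → χ ∈ Y)
    (hsurj : ∀ χ ∈ Y, ∃ f : F, f ≠ 0 ∧ (∀ v : Place K F, (n : ℤ) ∣ v.ord f) ∧ R f χ) :
    ∃ κ : Pic0.torsion K F n ≃+ Additive Y,
      ∀ x : Pic0.torsion K F n,
        PicRel K n R (x : Pic0 K F) ((Additive.toMul (κ x) : Y) : X) := by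
  classical
  obtain ⟨κ₀, hinj, hκ₀⟩ := exists_kummerMap hconst hR hn
  have hmem : ∀ x : Pic0.torsion K F n, Additive.toMul (κ₀ x) ∈ Y := by
    intro x
    obtain ⟨D, f, -, hf, hDf, hχ⟩ := hκ₀ x
    exact hY f _ hf (fun v => ⟨_, (hDf v).symm⟩) hχ
  set κ₁ : Pic0.torsion K F n →+ Additive Y :=
    AddMonoidHom.mk' (fun x => Additive.ofMul (⟨Additive.toMul (κ₀ x), hmem x⟩ : Y)) (by
      intro x x'
      apply Additive.toMul.injective
      apply Subtype.ext
      show Additive.toMul (κ₀ (x + x')) = Additive.toMul (κ₀ x) * Additive.toMul (κ₀ x')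
      rw [map_add]
      rfl) with hκ₁
  have hκ₁inj : Function.Injective κ₁ := by
    intro x x' hxx'
    apply hinj
    have := congrArg (fun y : Additive Y => ((Additive.toMul y : Y) : X)) hxx'
    exact this
  have hκ₁surj : Function.Surjective κ₁ := by
    intro y
    obtain ⟨f, hf, hdvd, hχ⟩ := hsurj (Additive.toMul y : Y) (Additive.toMul y : Y).2
    obtain ⟨x, hx, hxχ⟩ := PicRel.exists_class hn hf hdvd hχ
    refine ⟨⟨x, hx⟩, ?_⟩
    apply Additive.toMul.injective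
    apply Subtype.ext
    exact PicRel.unique hconst hR hn (hκ₀ ⟨x, hx⟩) hxχ
  refine ⟨AddEquiv.ofBijective κ₁ ⟨hκ₁inj, hκ₁surj⟩, fun x => ?_⟩
  exact hκ₀ x

end

end Fermat.Agent.S29lib.K1
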