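/-
Block K1 (GalRep project): the Kummer relation `IsKum Γ n` satisfies the abstract hypotheses
`KummerRel` as soon as "divisor divisible by `n`" implies "orders on `ℍ` divisible by `n`".
-/
import Mathlib
import Fermat.Agent.S29lib.K1.Kummer
import Fermat.Agent.S29lib.K1.Pic0Kummer

set_option autoImplicit false

namespace Fermat.Agent.S29lib.K1

open Fermat.Agent.ProgramR AlgebraicCurve
open scoped MatrixGroups

variable (Γ : Subgroup SL(2, ℤ)) {F : Type*} [Field F] [Algebra (WH0 Γ) F]
  [IsFractionRing (WH0 Γ) F] [Algebra ℂ F]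

/-- The Kummer relation of `Γ \ ℍ` satisfies the abstract hypotheses, given the dictionary
"divisor divisible by `n` ⇒ orders on `ℍ` divisible by `n`". -/
theorem isKum_kummerRel {n : ℕ} (hn : 0 < n)
    (hdict : ∀ f : F, f ≠ 0 → (∀ v : Place ℂ F, (n : ℤ) ∣ v.ord f) → HDiv Γ n f) :
    KummerRel ℂ F n (IsKum Γ n (F := F)) where
  unique := fun _ _ _ h h' => IsKum.unique hn h h'
  exists_of_dvd := fun f hf hdvd => (hdict f hf hdvd).exists_isKum hn hf
  mul := fun _ _ _ _ h h' => h.mul h'
  pow := fun _ hh => isKum_pow hh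
  ker := fun _ h => h.exists_pow_eq hn

end Fermat.Agent.S29lib.K1
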